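import Mathlib
import Fermat.Prelude.Def_FLTPrelim_FreyPackage
import Fermat.Prelude.Def_FLTPrelim_GaloisRep
import Fermat.Prelude.Def_FLTPrelim_Modularity
import Fermat.Prelude.Def_FLTPrelim_ModularRep
import Fermat.Prelude.Def_FLTPrelim_Ramification
import Fermat.Prelude.Def_FreyPackage_IsConductorLevel
import Fermat.Agent.S05
import Fermat.Agent.S08

/-!
# S45 glue (helper404, row RIBET)

`S45` (a nonzero weight-2 cusp form on `Γ₀(2)` from a Frey package with irreducible mod-`p`
representation) follows formally from the statements of `S06`, `S43`, `S44` taken as hypotheses,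
and from the landed `S05` (the Frey representation is unramified outside `2p`) and `S08`
(no cusp forms of weight 2 and level 1).
-/

set_option autoImplicit false

open WeierstrassCurve WeierstrassCurve.Affine WeierstrassCurve.Affine.Point
open CuspForm ModularFormClass UpperHalfPlane

namespace Fermat.Agent.S45.H404

/-- The statement of `S06`. -/
def S06Statement : Prop :=
  ∀ P : FreyPackage, ∃ N : ℕ, P.IsConductorLevel N ∧ P.ModularRepOfLevel N

/-- The statement of `S43`. -/
def S43Statement : Prop :=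
  ∀ (P : FreyPackage) {N q : ℕ}, P.IsConductorLevel N → q.Prime → q ≠ 2 → q ≠ P.p → q ∣ N →
    GaloisRepIsIrreducible (K := AlgebraicClosure ℚ) ℚ P.freyCurve P.p →
    P.ModularRepOfLevel N → P.GaloisRepUnramifiedAt q →
    ∃ M : ℕ, M ∣ N ∧ ¬ q ∣ M ∧ P.ModularRepOfLevel M

/-- The statement of `S44`. -/
def S44Statement : Prop :=
  ∀ (P : FreyPackage) {N : ℕ}, P.IsConductorLevel N → P.p ∣ N →
    GaloisRepIsIrreducible (K := AlgebraicClosure ℚ) ℚ P.freyCurve P.p →
    P.ModularRepOfLevel N →
    ∃ M : ℕ, M ∣ N ∧ ¬ P.p ∣ M ∧ P.ModularRepOfLevel M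

/-- The statement of `S45`. -/
def S45Statement : Prop :=
  ∀ (P : FreyPackage), P.freyCurve.IsModular →
    GaloisRepIsIrreducible (K := AlgebraicClosure ℚ) ℚ P.freyCurve P.p →
    ∃ f : CuspForm (CongruenceSubgroup.Gamma0 2) 2, f ≠ 0

/-- Descent of the level to a divisor of `2`. -/
theorem exists_level_dvd_two (h43 : S43Statement) (h44 : S44Statement) (P : FreyPackage)
    (hirr : GaloisRepIsIrreducible (K := AlgebraicClosure ℚ) ℚ P.freyCurve P.p) :
    ∀ N : ℕ, P.IsConductorLevel N → P.ModularRepOfLevel N →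
      ∃ M : ℕ, M ∣ 2 ∧ P.ModularRepOfLevel M := by
  intro N
  induction N using Nat.strong_induction_on with
  | _ N ih =>
    intro hcond hmod
    by_cases hall : ∀ q : ℕ, q.Prime → q ∣ N → q = 2
    · -- `N` is squarefree with no odd prime factor
      refine ⟨N, ?_, hmod⟩
      have hN0 : N ≠ 0 := hcond.pos.ne'
      by_cases h2 : 2 ∣ N
      · obtain ⟨k, hk⟩ := h2
        have hk1 : k = 1 := by
          by_contra hk1
          obtain ⟨q, hq, hqk⟩ := Nat.exists_prime_and_dvd hk1
          have hq2 : q = 2 := hall q hq (hk ▸ Dvd.dvd.mul_left hqk 2)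
          subst hq2
          have h4 : 2 ^ 2 ∣ N := by
            obtain ⟨j, hj⟩ := hqk
            exact ⟨j, by rw [hk, hj]; ring⟩
          exact hcond.sq_not_dvd Nat.prime_two h4
        rw [hk, hk1]
      · have hN1 : N = 1 := by
          by_contra hN1
          obtain ⟨q, hq, hqN⟩ := Nat.exists_prime_and_dvd hN1
          exact h2 (hall q hq hqN ▸ hqN)
        rw [hN1]
        exact one_dvd 2
    · push Not at hall
      obtain ⟨q, hq, hqN, hq2⟩ := hall
      have hstep : ∃ M : ℕ, M ∣ N ∧ ¬ q ∣ M ∧ P.ModularRepOfLevel M := by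
        by_cases hqp : q = P.p
        · subst hqp
          exact h44 P hcond hqN hirr hmod
        · exact h43 P hcond hq hq2 hqp hqN hirr hmod (Fermat.Agent.S05.result P hq hq2 hqp)
      obtain ⟨M, hMN, hqM, hMmod⟩ := hstep
      have hMpos : 0 < M := Nat.pos_of_dvd_of_pos hMN hcond.pos
      have hMlt : M < N := by
        refine lt_of_le_of_ne (Nat.le_of_dvd hcond.pos hMN) ?_
        rintro rfl
        exact hqM hqN
      exact ih M hMlt (hcond.of_dvd hMN hMpos) hMmod

/-- **S45 from S06, S43, S44.** -/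
theorem s45_of (h06 : S06Statement) (h43 : S43Statement) (h44 : S44Statement) : S45Statement := by
  intro P _ hirr
  obtain ⟨N, hcond, hmod⟩ := h06 P
  obtain ⟨M, hM2, f, W, 𝔪, hf, -⟩ := exists_level_dvd_two h43 h44 P hirr N hcond hmod
  rcases (Nat.dvd_prime Nat.prime_two).mp hM2 with rfl | rfl
  · exact absurd (Fermat.Agent.S08.result f) hf.ne_zero
  · exact ⟨f, hf.ne_zero⟩

end Fermat.Agent.S45.H404
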